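import Fermat.Agent.GalRep.Density
import Fermat.Prelude.Def_GaloisRep_LocalConditions

/-!
# S34 from the abstract Eichler--Shimura input and unipotence of inertia on torsion

If inertia at `q` acts on `J[p^∞]` (for an Eichler--Shimura module `J`) with
`(σ - 1) (τ - 1) = 0`, then the representation of a `HeckeGaloisRepDatum` is unipotent on inertia
at `q ≠ p`.
-/

set_option autoImplicit false

noncomputable section

open CuspForm ModularCurve Polynomial Fermat.Agent.GalRep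

namespace Fermat.Agent.S34aux

/-! ### Determinants and charpolys in rank two -/

section RankTwo

variable {R V : Type*} [CommRing R] [Nontrivial R] [AddCommGroup V] [Module R V]
  [Module.Free R V] [Module.Finite R V]

lemma charpoly_eq_of_rank_two (hV : Module.finrank R V = 2) (f : V →ₗ[R] V) :
    ∃ a : R, f.charpoly = X ^ 2 + C a * X + C (LinearMap.det f) := by
  have hdeg : f.charpoly.natDegree = 2 := by rw [LinearMap.charpoly_natDegree, hV]
  have hmon := LinearMap.charpoly_monic f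
  refine ⟨f.charpoly.coeff 1, ?_⟩
  have h0 : LinearMap.det f = f.charpoly.coeff 0 := by
    have := LinearMap.det_eq_sign_charpoly_coeff f
    rw [hV] at this
    simpa using this
  rw [h0]
  ext n
  rcases n with _ | _ | _ | n
  · simp
  · simp
  · have h2 : f.charpoly.coeff 2 = 1 := by
      have := hmon.coeff_natDegree
      rwa [hdeg] at this
    simp [h2, coeff_X]
  · have h3 : f.charpoly.coeff (n + 1 + 1 + 1) = 0 :=
      Polynomial.coeff_eq_zero_of_natDegree_lt (by rw [hdeg]; omega)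
    rw [h3]
    simp [coeff_X, coeff_C, coeff_X_pow]

/-- A unipotent (of level two) endomorphism of determinant one of a free module of rank two has
characteristic polynomial `(X - 1)^2`. -/
theorem charpoly_eq_sq (hV : Module.finrank R V = 2) (f : V →ₗ[R] V)
    (hdet : LinearMap.det f = 1) (hf : (f - 1) * (f - 1) = 0) :
    f.charpoly = (X - 1) ^ 2 := by
  obtain ⟨a, ha⟩ := charpoly_eq_of_rank_two hV f
  rw [hdet] at ha
  have hCH := LinearMap.aeval_self_charpoly f
  rw [ha] at hCH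
  simp only [map_add, map_mul, aeval_X, aeval_C, map_pow, map_one] at hCH
  have hf2 : f * f = 2 * f - 1 := by
    have : f * f - (2 * f - 1) = 0 := by
      rw [← hf]; noncomm_ring
    exact sub_eq_zero.mp this
  have h1 : (a + 2) • f = 0 := by
    have h2 : (a + 2) • f = f ^ 2 + algebraMap R (Module.End R V) a * f + 1 - (f * f - (2 * f - 1)) := by
      rw [pow_two, ← Algebra.smul_def, add_smul, two_smul, two_mul]; abel
    rw [h2, hCH, hf2, sub_self, sub_self]
  -- `f` is invertible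
  have hinv : f * (2 - f) = 1 := by
    have : f * (2 - f) = 1 - (f * f - (2 * f - 1)) := by noncomm_ring
    rw [this, hf2, sub_self, sub_zero]
  have h3 : (a + 2) • (1 : Module.End R V) = 0 := by
    rw [← hinv, ← smul_mul_assoc, h1, zero_mul]
  have h4 : a + 2 = 0 := by
    have hpos : 0 < Module.finrank R V := by rw [hV]; norm_num
    let b : Module.Basis (Fin 2) R V := Module.finBasisOfFinrankEq R V hV
    have h5 := congrArg (fun g : Module.End R V => b.repr (g (b 0)) 0) h3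
    simpa using h5
  have h6 : a = -2 := by linear_combination h4
  rw [ha, h6]
  simp only [map_neg, map_one, map_ofNat]
  ring

end RankTwo

section AdicDet

variable {T : Type} [CommRing T] [IsLocalRing T]

lemma det_sub_one_mem {V : Type*} [AddCommGroup V] [Module T V] [Module.Free T V]
    [Module.Finite T V] (I : Ideal T) (f : Module.End T V)
    (h : ∀ v, f v - v ∈ I • (⊤ : Submodule T V)) : LinearMap.det f - 1 ∈ I := by
  classical
  set b := Module.Free.chooseBasis T V with hb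
  have key : ∀ w ∈ I • (⊤ : Submodule T V), ∀ i, b.repr w i ∈ I := by
    intro w hw i
    refine Submodule.smul_induction_on hw ?_ ?_
    · intro a ha v _
      rw [map_smul, Finsupp.smul_apply, smul_eq_mul]
      exact Ideal.mul_mem_right _ _ ha
    · intro x y hx hy
      rw [map_add, Finsupp.add_apply]
      exact Ideal.add_mem _ hx hy
  rw [← Ideal.Quotient.eq, map_one, ← LinearMap.det_toMatrix b, RingHom.map_det]
  have : (Ideal.Quotient.mk I).mapMatrix (LinearMap.toMatrix b b f) = 1 := by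
    ext i j
    rw [RingHom.mapMatrix_apply, Matrix.map_apply, LinearMap.toMatrix_apply]
    have h1 := key _ (h (b j)) i
    rw [map_sub, Finsupp.sub_apply, b.repr_self, ← Ideal.Quotient.eq] at h1
    rw [h1, Matrix.one_apply, Finsupp.single_apply]
    by_cases hij : i = j
    · subst hij; simp
    · rw [if_neg hij, if_neg (Ne.symm hij), map_zero]
  rw [this, Matrix.det_one]

lemma det_sub_mem (ρ : GaloisRepAdic T) {n : ℕ} {L : IntermediateField ℚ (AlgebraicClosure ℚ)}
    (hL : ∀ σ : GQ, (∀ x ∈ L, σ x = x) →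
      ∀ v : ρ.V, ρ.ρ σ v - v ∈ (IsLocalRing.maximalIdeal T ^ n) • (⊤ : Submodule T ρ.V))
    {σ σ' : GQ} (h : ∀ x ∈ L, σ x = σ' x) :
    LinearMap.det (ρ.ρ σ) - LinearMap.det (ρ.ρ σ') ∈ IsLocalRing.maximalIdeal T ^ n := by
  have h1 : ∀ x ∈ L, (σ'⁻¹ * σ) x = x := by
    intro x hx
    rw [AlgEquiv.mul_apply, h x hx, ← AlgEquiv.mul_apply, inv_mul_cancel, AlgEquiv.one_apply]
  have h2 := det_sub_one_mem _ _ (hL _ h1)
  have h3 : LinearMap.det (ρ.ρ σ) - LinearMap.det (ρ.ρ σ') =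
      LinearMap.det (ρ.ρ σ') * (LinearMap.det (ρ.ρ (σ'⁻¹ * σ)) - 1) := by
    rw [mul_sub, mul_one, ← map_mul, ← map_mul, mul_inv_cancel_left]
  rw [h3]
  exact Ideal.mul_mem_left _ _ h2

end AdicDet

section Main

variable {N p : ℕ} [NeZero N] {S : Finset ℕ}
  {T : Type} [CommRing T] [IsLocalRing T] [IsNoetherianRing T]

/-- If `ρ` has the Frobenius charpolys `X² - π(T_ℓ) X + ℓ` then `det ρ = 1` on inertia at
`q ≠ p`. -/
theorem det_inertia {π : heckeAlgebra N 2 (↑S : Set ℕ) →+* T} {ρ : GaloisRepAdic T}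
    (hfrob : HasFrobCharpoly π ρ) (hp : p.Prime) (hpS : p ∈ S)
    (hpT : (p : T) ∈ IsLocalRing.maximalIdeal T)
    (hNS : ∀ q : ℕ, q.Prime → q ∣ N → q ∈ S) {q : ℕ} (hq : q.Prime) (hqp : q ≠ p)
    {A : ValuationSubring (AlgebraicClosure ℚ)} (hA : A.LiesOverPrime q) {τ : GQ}
    (hτ : τ ∈ A.inertiaSubgroupIn ℚ) : LinearMap.det (ρ.ρ τ) = 1 := by
  have hbot : ∀ x : T, (∀ n : ℕ, x ∈ IsLocalRing.maximalIdeal T ^ n) → x = 0 := by
    intro x hx
    have h := Ideal.iInf_pow_eq_bot_of_isLocalRing (IsLocalRing.maximalIdeal T)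
      (Ideal.IsPrime.ne_top inferInstance)
    have : x ∈ ⨅ n : ℕ, IsLocalRing.maximalIdeal T ^ n := by
      rw [Submodule.mem_iInf]; exact hx
    rw [h] at this
    exact this
  rw [← sub_eq_zero]
  refine hbot _ fun n => ?_
  have hpn0 : p ^ n ≠ 0 := pow_ne_zero _ hp.ne_zero
  haveI : NeZero (p ^ n) := ⟨hpn0⟩
  obtain ⟨ζ, hζ⟩ := HasEnoughRootsOfUnity.exists_primitiveRoot (AlgebraicClosure ℚ) (p ^ n)
  obtain ⟨L₁, hL₁fin, hL₁⟩ := ρ.isAdicContinuous n
  set L₃ : IntermediateField ℚ (AlgebraicClosure ℚ) := IntermediateField.adjoin ℚ {ζ} with hL₃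
  haveI hL₃fin : FiniteDimensional ℚ L₃ :=
    IntermediateField.adjoin.finiteDimensional ((Algebra.IsAlgebraic.isAlgebraic ζ).isIntegral)
  obtain ⟨ℓ, hℓ, hℓS, B, hB, φ, hφ, k, hk⟩ := frobeniusDensity (L₁ ⊔ L₃) inferInstance τ S
  have hℓN : ¬ ℓ ∣ N := fun h => hℓS (hNS ℓ hℓ h)
  have hℓp : ℓ ≠ p := fun h => hℓS (h ▸ hpS)
  have hcop : Nat.Coprime q (p ^ n) := ((Nat.coprime_primes hq hp).mpr hqp).pow_right n
  have hτζ : τ ζ = ζ := inertia_fix_rootOfUnity hA hcop hpn0 hτ hζ.pow_eq_one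
  have hφζ : ζ ^ (ℓ ^ k) = ζ ^ 1 := by
    rw [← frobenius_pow_zeta p hp n hζ hℓ hℓp hB hφ k, pow_one,
      hk ζ ((le_sup_right : L₃ ≤ L₁ ⊔ L₃) (IntermediateField.mem_adjoin_simple_self ℚ ζ)), hτζ]
  have hcong : ((ℓ ^ k : ℕ) : ZMod (p ^ n)) = ((1 : ℕ) : ZMod (p ^ n)) :=
    natCast_eq_of_pow_eq p hp n hζ hφζ
  have hcongT : ((ℓ : T) ^ k) - 1 ∈ IsLocalRing.maximalIdeal T ^ n := by
    have h1 : ((p ^ n : ℕ) : ℤ) ∣ ((ℓ ^ k : ℕ) : ℤ) - ((1 : ℕ) : ℤ) := by
      rw [← ZMod.intCast_zmod_eq_zero_iff_dvd] 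
      push_cast
      have := sub_eq_zero.mpr hcong
      push_cast at this
      exact this
    obtain ⟨c, hc⟩ := h1
    have h2 := congrArg (Int.cast : ℤ → T) hc
    push_cast at h2
    rw [h2]
    exact Ideal.mul_mem_right _ _ (Ideal.pow_mem_pow hpT n)
  have hdetφ : LinearMap.det (ρ.ρ φ) = (ℓ : T) := by
    have h1 := hfrob ℓ hℓ hℓN (by simpa using hℓS) B hB φ hφ
    have h2 := LinearMap.det_eq_sign_charpoly_coeff (ρ.ρ φ)
    rw [h1, ρ.finrank_eq] at h2
    simpa using h2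
  have hd := det_sub_mem ρ hL₁ (σ := τ) (σ' := φ ^ k)
    fun x hx => (hk x ((le_sup_left : L₁ ≤ L₁ ⊔ L₃) hx)).symm
  rw [map_pow, map_pow, hdetφ] at hd
  have : LinearMap.det (ρ.ρ τ) - 1 = (LinearMap.det (ρ.ρ τ) - (ℓ : T) ^ k) + ((ℓ : T) ^ k - 1) := by
    ring
  rw [this]
  exact Ideal.add_mem _ hd hcongT

variable {J : Type*} [AddCommGroup J] [Module HeckeAlg J] [DistribMulAction GQ J]
  [SMulCommClass GQ HeckeAlg J]

lemma sum_unip {M : Type*} [AddCommGroup M] (τ : GQ) (F : GQ → M) :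
    ((Finsupp.single (τ * τ) 1 + Finsupp.single τ (-2) + Finsupp.single 1 1 : GQ →₀ ℤ).sum
      fun g c => c • F g) = F (τ * τ) - 2 • F τ + F 1 := by
  classical
  rw [Finsupp.sum_add_index' (h := fun g c => c • F g) (fun _ => zero_smul _ _)
      (fun _ _ _ => add_smul _ _ _),
    Finsupp.sum_add_index' (h := fun g c => c • F g) (fun _ => zero_smul _ _)
      (fun _ _ _ => add_smul _ _ _),
    Finsupp.sum_single_index (h := fun g c => c • F g) (zero_smul _ _),
    Finsupp.sum_single_index (h := fun g c => c • F g) (zero_smul _ _),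
    Finsupp.sum_single_index (h := fun g c => c • F g) (zero_smul _ _), one_smul, one_smul,
    neg_smul, sub_eq_add_neg]
  congr 3
  exact ofNat_zsmul (F τ) 2

/-- The unipotence property of inertia at `q` on the `p`-power torsion of `J`. -/
def InertiaUnipotent (J : Type*) [AddCommGroup J] [DistribMulAction GQ J] (p q : ℕ) : Prop :=
  ∀ A : ValuationSubring (AlgebraicClosure ℚ), A.LiesOverPrime q →
    ∀ σ ∈ A.inertiaSubgroupIn ℚ, ∀ m : ℕ, ∀ x : J, p ^ m • x = 0 →
      σ • (σ • x - x) = σ • x - x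

/-- **Unipotence transfers from `J` to `ρ`** (general form). -/
theorem isUnipotentOnInertiaAt_of_transfer (hJ : ESInput N p (↑S : Set ℕ) J) (hp : p.Prime)
    (hpS : p ∈ S) (hpT : (p : T) ∈ IsLocalRing.maximalIdeal T)
    (hNS : ∀ q : ℕ, q.Prime → q ∣ N → q ∈ S)
    {π : heckeAlgebra N 2 (↑S : Set ℕ) →+* T} {ρ : GaloisRepAdic T}
    (hfrob : HasFrobCharpoly π ρ) (habs : ρ.residual.IsAbsolutelyIrreducible)
    {q : ℕ} (hq : q.Prime) (hqp : q ≠ p) (hU : InertiaUnipotent J p q) :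
    ρ.IsUnipotentOnInertiaAt q := by
  classical
  intro A hA τ hτ
  have hdet := det_inertia hfrob hp hpS hpT hNS hq hqp hA hτ
  refine charpoly_eq_sq ρ.finrank_eq _ hdet ?_
  refine LinearMap.ext fun v => ?_
  rw [LinearMap.zero_apply]
  -- Krull intersection
  have hkrull := Ideal.iInf_pow_smul_eq_bot_of_isLocalRing (M := ρ.V) (IsLocalRing.maximalIdeal T)
    (Ideal.IsPrime.ne_top inferInstance)
  have hmem : ((ρ.ρ τ - 1) * (ρ.ρ τ - 1)) v ∈
      (⨅ i : ℕ, IsLocalRing.maximalIdeal T ^ i • ⊤ : Submodule T ρ.V) := by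
    rw [Submodule.mem_iInf]
    intro n
    obtain ⟨m, hm⟩ := transfer frobeniusDensity hJ hp hpS hNS hfrob habs n
    set y : GQ →₀ ℤ := Finsupp.single (τ * τ) 1 + Finsupp.single τ (-2) + Finsupp.single 1 1 with hy
    have h1 := hm y (fun x hx => by
      rw [hy, sum_unip τ (fun g => g • x)]
      have h2 := hU A hA τ hτ m x hx
      rw [one_smul, mul_smul, two_smul]
      rw [smul_sub] at h2
      have h3 : τ • τ • x = τ • x + (τ • x - x) := by rw [← h2]; abel
      rw [h3]; abel) v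
    rw [hy, sum_unip τ (fun g => ρ.ρ g v)] at h1
    have h4 : ((ρ.ρ τ - 1) * (ρ.ρ τ - 1)) v = ρ.ρ (τ * τ) v - 2 • ρ.ρ τ v + ρ.ρ 1 v := by
      rw [map_mul, map_one, Module.End.mul_apply, Module.End.mul_apply, LinearMap.sub_apply,
        LinearMap.sub_apply, Module.End.one_apply, map_sub, Module.End.one_apply, two_smul]
      abel
    rw [h4]
    refine Submodule.smul_mono_left ?_ h1
    rw [Ideal.span_singleton_le_iff_mem]
    exact Ideal.pow_mem_pow hpT n
  rw [hkrull] at hmem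
  exact hmem

/-- **S34 from the Eichler--Shimura input and unipotence of inertia on `J[p^∞]`.** -/
theorem stmt34_of_ESInput {𝒪 : Type} [CommRing 𝒪] [IsDomain 𝒪] [IsDiscreteValuationRing 𝒪]
    [IsAdicComplete (IsLocalRing.maximalIdeal 𝒪) 𝒪]
    {θ : CuspForm.heckeAlgebra N 2 (↑S : Set ℕ) →+* IsLocalRing.ResidueField 𝒪}
    [IsAdicComplete (IsLocalRing.maximalIdeal T) T] [Algebra 𝒪 T] [IsLocalHom (algebraMap 𝒪 T)]
    [Module.Finite 𝒪 T] [Module.Free 𝒪 T]
    (hJ : ESInput N p (↑S : Set ℕ) J) (hp : p.Prime)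
    (hp𝒪 : (p : 𝒪) ∈ IsLocalRing.maximalIdeal 𝒪) (hpS : p ∈ S)
    (hNS : ∀ q : ℕ, q.Prime → q ∣ N → q ∈ S)
    (H : CuspForm.HeckeGaloisRepDatum N (↑S : Set ℕ) 𝒪 θ T)
    (q : ℕ) (hq : q.Prime) (hqp : q ≠ p) (hU : InertiaUnipotent J p q) :
    H.ρ.IsUnipotentOnInertiaAt q := by
  have hpT : (p : T) ∈ IsLocalRing.maximalIdeal T := by
    have h := map_nonunit (algebraMap 𝒪 T) (p : 𝒪) hp𝒪
    rwa [map_natCast] at h
  exact isUnipotentOnInertiaAt_of_transfer hJ hp hpS hpT hNS (π := H.π) H.charpoly_frob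
    H.residual_absIrr hq hqp hU

end Main

end Fermat.Agent.S34aux

end
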