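import Mathlib
import Fermat.Agent.HeckeComm.Galois
import Fermat.Agent.QX4.Defs
import Fermat.Agent.S27.Export
import Fermat.Agent.S34.Reduction

/-!
# Descent of identities on `J₀(N)[p^∞]` from level `N t` to level `N`
-/

set_option autoImplicit false
set_option linter.unusedSectionVars false
set_option linter.style.haveILetI false

noncomputable section

open ModularCurve AlgebraicCurve Fermat.Agent.RR Fermat.Agent.TEll Fermat.Agent.HeckeComm
open Fermat.Agent.QX4 (pushPic0 pushDegZero coe_pushDegZero pushPic0_mk)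

namespace Fermat.Agent.S34aux

/-! ### Pull-back on `Pic⁰` -/

section Pull

variable {K F F' : Type*} [Field K] [Field F] [Field F'] [Algebra K F] [Algebra K F']
variable [HasPrincipalDivisors K F'] (φ : F →ₐ[K] F') (hφ : φ.toRingHom.IsIntegral)
  (hFI : FundamentalIdentityAlong K φ hφ)

/-- the pull-back of divisors of degree zero -/
def pullDegZero : Divisor.degZero (K := K) (F := F) →+ Divisor.degZero (K := K) (F := F') :=
  ((Divisor.pullbackAlong φ hφ).domRestrict (Divisor.degZero (K := K) (F := F))).codRestrict _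
    (fun D => Divisor.pullbackAlong_mem_degZero φ hφ hFI D.2)

@[simp]
theorem coe_pullDegZero (D : Divisor.degZero (K := K) (F := F)) :
    (pullDegZero φ hφ hFI D : Divisor K F') = Divisor.pullbackAlong φ hφ (D : Divisor K F) := rfl

/-- the pull-back on `Pic⁰` -/
def pullPic0 : Pic0 K F →+ Pic0 K F' :=
  QuotientAddGroup.map _ _ (pullDegZero φ hφ hFI) (by
    rintro ⟨D, hD0⟩ hD
    simp only [AddSubgroup.mem_addSubgroupOf] at hD ⊢
    exact Divisor.isPrincipal_pullbackAlong φ hφ hD)

theorem pullPic0_mk (D : Divisor.degZero (K := K) (F := F)) :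
    pullPic0 φ hφ hFI (Pic0.mk D) = Pic0.mk (pullDegZero φ hφ hFI D) := rfl

theorem push_pull_div [HasPrincipalDivisors K F] (hfin : FiniteAlong K φ)
    (hN : NormFormulaAlong K φ hfin) (D : Divisor K F) :
    Divisor.pushforwardAlong φ hφ (Divisor.pullbackAlong φ hφ D) = finrankAlong K φ • D := by
  have h1 : (Divisor.pushforwardAlong φ hφ).comp (Divisor.pullbackAlong φ hφ) =
      finrankAlong K φ • AddMonoidHom.id (Divisor K F) := by
    refine eq_of_principal ((finiteRows_pushforwardAlong φ hφ).comp (finiteRows_pullbackAlong φ hφ))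
      ?_ fun f hf => ?_
    · classical
      intro Q
      refine (Set.finite_singleton Q).subset fun R hR => ?_
      rw [Set.mem_ofPred_eq, AddMonoidHom.smul_apply, AddMonoidHom.id_apply, Finsupp.smul_apply,
        Finsupp.single_apply] at hR
      by_contra hne
      refine hR ?_
      rw [if_neg fun h => hne (Set.mem_singleton_iff.mpr h), smul_zero]
    · have hφf : φ f ≠ 0 := (map_ne_zero_iff (φ : F →+* F') (RingHom.injective _)).mpr hf
      rw [AddMonoidHom.comp_apply, pullbackAlong_div, pushforwardAlong_div φ hφ hfin hN hφf,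
        normAlong_algebraMap, AddMonoidHom.smul_apply, AddMonoidHom.id_apply]
      ext v
      rw [div_apply, Finsupp.smul_apply, div_apply, ← zpow_natCast, v.ord_zpow, nsmul_eq_mul]
  exact DFunLike.congr_fun h1 D

end Pull

/-! ### Levels `N` and `N t` -/

section Level

/-- the algebraic numbers -/
local notation "𝕂" => AlgebraicClosure ℚ

variable (N t : ℕ) [NeZero N] [NeZero t]

theorem intN : (heckeAlphaBar 𝕂 N t).toRingHom.IsIntegral := intAlpha N t

theorem fiN : FundamentalIdentityAlong 𝕂 (heckeAlphaBar 𝕂 N t) (intN N t) :=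
  Fermat.Agent.FF.fundamentalIdentityAlong _ _

/-- the pull-back `J₀(N) → J₀(N t)` -/
def pullN : JZero N →+ JZero (N * t) :=
  pullPic0 (heckeAlphaBar 𝕂 N t) (intN N t) (fiN N t)

/-- the push-forward `J₀(N t) → J₀(N)` -/
def pushN : JZero (N * t) →+ JZero N :=
  pushPic0 (heckeAlphaBar 𝕂 N t) (intN N t) (finAlpha N t) (nfAlpha N t)

theorem pullN_mk (D : Divisor.degZero (K := 𝕂) (F := modularFunctionFieldBar N)) :
    pullN N t (Pic0.mk D) = Pic0.mk (pullDegZero (heckeAlphaBar 𝕂 N t) (intN N t) (fiN N t) D) :=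
  rfl

theorem pushN_mk (D : Divisor.degZero (K := 𝕂) (F := modularFunctionFieldBar (N * t))) :
    pushN N t (Pic0.mk D) = Pic0.mk (pushDegZero (heckeAlphaBar 𝕂 N t) (intN N t) D) :=
  rfl

/-- the degree of the projection -/
def degN : ℕ := finrankAlong 𝕂 (heckeAlphaBar 𝕂 N t)

theorem degN_pos : 0 < degN N t := by
  letI := algebraAlong (heckeAlphaBar 𝕂 N t)
  haveI : Module.Finite (modularFunctionFieldBar N) (modularFunctionFieldBar (N * t)) :=
    finAlpha N t
  exact Module.finrank_pos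

theorem pushN_pullN (x : JZero N) : pushN N t (pullN N t x) = degN N t • x := by
  obtain ⟨D, rfl⟩ := Pic0.mk_surjective x
  rw [pullN_mk, pushN_mk]
  change _ = Pic0.mk (degN N t • D)
  refine congrArg Pic0.mk (Subtype.ext ?_)
  rw [coe_pushDegZero, coe_pullDegZero, push_pull_div _ _ (finAlpha N t) (nfAlpha N t)]
  rfl

theorem pullN_smul (σ : 𝕂 ≃ₐ[ℚ] 𝕂) (x : JZero N) : pullN N t (σ • x) = σ • pullN N t x := by
  obtain ⟨D, rfl⟩ := Pic0.mk_surjective x
  rw [galois_smul_pic0_def, galois_smul_pic0_def, SemilinearAut.pic0_smul_mk, pullN_mk,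
    pullN_mk, SemilinearAut.pic0_smul_mk]
  refine congrArg Pic0.mk (Subtype.ext ?_)
  rw [coe_pullDegZero, SemilinearAut.coe_degZeroSMulHom, SemilinearAut.coe_degZeroSMulHom,
    coe_pullDegZero]
  exact pullbackAlong_smul _ _ _ _ (intertwines_alpha N t σ) _

theorem pushN_smul (σ : 𝕂 ≃ₐ[ℚ] 𝕂) (x : JZero (N * t)) :
    pushN N t (σ • x) = σ • pushN N t x := by
  obtain ⟨D, rfl⟩ := Pic0.mk_surjective x
  rw [galois_smul_pic0_def, galois_smul_pic0_def, SemilinearAut.pic0_smul_mk, pushN_mk,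
    pushN_mk, SemilinearAut.pic0_smul_mk]
  refine congrArg Pic0.mk (Subtype.ext ?_)
  rw [coe_pushDegZero, SemilinearAut.coe_degZeroSMulHom, SemilinearAut.coe_degZeroSMulHom,
    coe_pushDegZero]
  exact pushforwardAlong_smul _ _ (finAlpha N t) (nfAlpha N t) _ _ (intertwines_alpha N t σ) _

/-- `J₀(N)` is divisible. -/
theorem jzero_divisible {n : ℕ} (hn : n ≠ 0) (x : JZero N) : ∃ y : JZero N, n • y = x := by
  haveI : FF.IsFF 𝕂 (modularFunctionFieldBar N) := inferInstance
  exact (Fermat.Agent.S27.pic0_torsion_divisible 𝕂 (modularFunctionFieldBar N) n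
    (Nat.cast_ne_zero.mpr hn)).2 x

/-- `J₀(N)[p^∞]` is divisible. -/
theorem exists_torsion_div {p : ℕ} (hp : p.Prime) {d : ℕ} (hd : d ≠ 0) {m : ℕ} {x : JZero N}
    (hx : p ^ m • x = 0) : ∃ (k : ℕ) (y : JZero N), p ^ k • y = 0 ∧ d • y = x := by
  obtain ⟨a, d', hd', rfl⟩ := Nat.exists_eq_pow_mul_and_not_dvd hd p hp.one_lt.ne'
  obtain ⟨z, hz⟩ := jzero_divisible N (pow_ne_zero a hp.ne_zero) x
  have hz' : p ^ (m + a) • z = 0 := by rw [pow_add, mul_smul, hz, hx]
  have hcop : Nat.Coprime d' (p ^ (m + a)) :=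
    (((Nat.Prime.coprime_iff_not_dvd hp).mpr hd').symm).pow_right _
  have hb := Nat.gcd_eq_gcd_ab d' (p ^ (m + a))
  rw [hcop.gcd_eq_one, Nat.cast_one] at hb
  have h1 : (d' : ℤ) • (Nat.gcdA d' (p ^ (m + a)) • z) = z := by
    rw [smul_smul]
    have h2 : (d' : ℤ) * Nat.gcdA d' (p ^ (m + a)) =
        1 - ((p ^ (m + a) : ℕ) : ℤ) * Nat.gcdB d' (p ^ (m + a)) := by rw [hb]; ring
    rw [h2, sub_smul, one_smul, mul_comm, mul_smul, natCast_zsmul, hz', smul_zero, sub_zero]
  refine ⟨m + a, Nat.gcdA d' (p ^ (m + a)) • z, ?_, ?_⟩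
  · rw [smul_comm, hz', smul_zero]
  · rw [mul_smul, ← natCast_zsmul (Nat.gcdA d' (p ^ (m + a)) • z) d', h1, hz]

/-- descent of the unipotence of inertia -/
theorem InertiaUnipotent.descend {p q : ℕ} (hp : p.Prime)
    (h : InertiaUnipotent (JZero (N * t)) p q) : InertiaUnipotent (JZero N) p q := by
  intro A hA σ hσ m x hx
  obtain ⟨k, y, hy, rfl⟩ := exists_torsion_div N hp (degN_pos N t).ne' hx
  have h1 := h A hA σ hσ k (pullN N t y) (by rw [← map_nsmul, hy, map_zero])
  have h2 := congrArg (pushN N t) h1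
  rw [pushN_smul, map_sub, pushN_smul, pushN_pullN] at h2
  exact h2

end Level

end Fermat.Agent.S34aux
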