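import Mathlib
import Fermat.Agent.S34.Reduction
import Fermat.Agent.TwoGauss.Uncond
import Fermat.Agent.Cofaith.ES

/-!
# S34 from the existence of specializations
-/

set_option autoImplicit false
set_option linter.unusedSectionVars false
set_option linter.style.haveILetI false

noncomputable section

open ModularCurve AlgebraicCurve HahnSeries Fermat.Agent.GalRep
open Fermat.Agent.GaussVal Fermat.Agent.FF Fermat.Agent.RR Fermat.Agent.TwoGauss
open scoped Fermat.Agent.GaussVal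

namespace Fermat.Agent.S34aux

theorem InertiaUnipotent.congr {p q N N' : ℕ} (h : N = N')
    (hU : InertiaUnipotent (JZero N) p q) : InertiaUnipotent (JZero N') p q := by
  subst h; exact hU

/-- **Unipotence of inertia at `q ∥ N` on `J₀(N)[p^∞]`.** -/
theorem inertiaUnipotent_JZero {q p N : ℕ} [NeZero N] (hq : q.Prime) (hp : p.Prime) (hqp : q ≠ p)
    (hqN : q ∣ N) (hq2 : ¬ q ^ 2 ∣ N) : InertiaUnipotent (JZero N) p q := by
  obtain ⟨m, rfl⟩ := hqN
  have hm : ¬ q ∣ m := fun h => hq2 (by rw [pow_two]; exact mul_dvd_mul_left q h)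
  haveI : NeZero m := ⟨fun h => NeZero.ne (q * m) (by rw [h, mul_zero])⟩
  have h1 : InertiaUnipotent (JZero (m * q)) p q := by
    intro A hA σ hσ k x hx
    refine inertia_unipotent hq hm hA (fun h => hqp ?_) hσ hσ hx
    exact (Nat.prime_dvd_prime_iff_eq hq hp).mp (hq.dvd_of_dvd_pow h)
  exact h1.congr (mul_comm m q)

open IsLocalRing CuspForm in
/-- **S34** from `SpecializationExists`. -/
theorem main
    {𝒪 : Type} [CommRing 𝒪] [IsDomain 𝒪] [IsDiscreteValuationRing 𝒪]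
    [IsAdicComplete (maximalIdeal 𝒪) 𝒪] [Finite (ResidueField 𝒪)] [CharZero 𝒪]
    {p : ℕ} (hp : p.Prime) (hp𝒪 : (p : 𝒪) ∈ maximalIdeal 𝒪)
    {N : ℕ} [NeZero N] {S : Finset ℕ} (hpS : p ∈ S) (hNS : ∀ q : ℕ, q.Prime → q ∣ N → q ∈ S)
    {θ : CuspForm.heckeAlgebra N 2 (↑S : Set ℕ) →+* ResidueField 𝒪}
    {T : Type} [CommRing T] [IsLocalRing T] [IsNoetherianRing T]
    [IsAdicComplete (maximalIdeal T) T] [Algebra 𝒪 T] [IsLocalHom (algebraMap 𝒪 T)]
    [Module.Finite 𝒪 T] [Module.Free 𝒪 T]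
    (H : CuspForm.HeckeGaloisRepDatum N (↑S : Set ℕ) 𝒪 θ T)
    (q : ℕ) (hq : q.Prime) (hqp : q ≠ p) (hqN : q ∣ N) (hq2 : ¬ q ^ 2 ∣ N)
    (hspec : letI := heckeModuleBar N
      haveI := Cofaith.smulCommClass_JZero N
      SpecializationExists (K := ℚ) (L := AlgebraicClosure ℚ) N p (JZero N)) :
    H.ρ.IsUnipotentOnInertiaAt q := by
  letI := heckeModuleBar N
  haveI := Cofaith.smulCommClass_JZero N
  have hES : ESInput N p (↑S : Set ℕ) (JZero N) :=
    Cofaith.esInput_JZero N hp (↑S : Set ℕ) (fun ℓ hℓ hd => by simpa using hNS ℓ hℓ hd) hspec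
  exact stmt34_of_ESInput (J := JZero N) hES hp hp𝒪 hpS hNS H q hq hqp
    (inertiaUnipotent_JZero hq hp hqp hqN hq2)

end Fermat.Agent.S34aux
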