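import Mathlib
import Fermat.Agent.TwoComp.Toric
import Fermat.Agent.TwoGauss.ActInst
import Fermat.Agent.QX4.SecGauss
import Fermat.Agent.S34.Descent

/-!
# Unipotence of inertia on `J₀(m q)[p^∞]` from the statement on toric classes
-/

set_option autoImplicit false
set_option linter.unusedSectionVars false
set_option linter.style.haveILetI false

noncomputable section

open ModularCurve AlgebraicCurve HahnSeries
open Fermat.Agent.GaussVal Fermat.Agent.FF Fermat.Agent.RR Fermat.Agent.TwoGauss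
open scoped Fermat.Agent.GaussVal

namespace Fermat.Agent.S34aux

/-- the algebraic numbers -/
local notation "𝕂" => AlgebraicClosure ℚ

section Scal

variable {A : ValuationSubring (AlgebraicClosure ℚ)} {q m : ℕ} [NeZero m]
  [Fact q.Prime] [CharP (IsLocalRing.ResidueField A) q]
  [IsAlgClosed (IsLocalRing.ResidueField A)] [PerfectRing (IsLocalRing.ResidueField A) q]
  (hq : q.Prime) (hm : ¬ q ∣ m) (hA : A.LiesOverPrime q)
  (H3 : S18aux.DegThm (IsLocalRing.ResidueField A) m)
  (H2 : genusFF (AlgebraicClosure ℚ) (modularFunctionFieldBar m) ≤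
    genusFF (IsLocalRing.ResidueField A) (modularFunctionFieldFullC (IsLocalRing.ResidueField A) m))

theorem scal_mkData : (mkData hq hm hA H3 H2).Scal where
  fst f hf := by
    obtain ⟨c, hc0, h, hne⟩ := QX4.exists_scale_series hq hA
      (y := emb₁ m q f) (emb₁_mem f) ((map_ne_zero_iff _ (emb₁ m q).injective).mpr hf)
    have e : ((algebraMap 𝕂 (modularFunctionFieldBar (m * q)) c * f :
        modularFunctionFieldBar (m * q)) : LaurentSeries 𝕂) =
        algebraMap 𝕂 (LaurentSeries 𝕂) c * emb₁ m q f := rfl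
    have h' : algebraMap 𝕂 (modularFunctionFieldBar (m * q)) c * f ∈
        (mkData hq hm hA H3 H2).O₁ := by
      rw [mem_mkData_O₁, e]
      exact h
    refine ⟨c, hc0, h', fun h0 => hne ?_⟩
    have h1 := coe_mkData_ρ₁ hq hm hA H3 H2 _ h'
    rw [h0] at h1
    exact h1.symm
  snd f hf := by
    obtain ⟨c, hc0, h, hne⟩ := QX4.exists_scale_series hq hA
      (y := emb₂ hq hm f) (emb₂_mem hq hm f)
      ((map_ne_zero_iff _ (emb₂ hq hm).injective).mpr hf)
    have e : ((wq hq hm (algebraMap 𝕂 (modularFunctionFieldBar (m * q)) c * f) :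
        modularFunctionFieldBar (m * q)) : LaurentSeries 𝕂) =
        algebraMap 𝕂 (LaurentSeries 𝕂) c * emb₂ hq hm f := by
      rw [map_mul, AlgEquiv.commutes]
      rfl
    have h' : algebraMap 𝕂 (modularFunctionFieldBar (m * q)) c * f ∈
        (mkData hq hm hA H3 H2).O₂ := by
      rw [mem_mkData_O₂, e]
      exact h
    refine ⟨c, hc0, h', fun h0 => hne ?_⟩
    have h1 := coe_mkData_ρ₂ hq hm hA H3 H2 _ h'
    rw [h0] at h1
    have h2 : gaussRed A ⟨algebraMap 𝕂 (LaurentSeries 𝕂) c * emb₂ hq hm f, h⟩ =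
        gaussRed A ⟨((wq hq hm (algebraMap 𝕂 (modularFunctionFieldBar (m * q)) c * f) :
          modularFunctionFieldBar (m * q)) : LaurentSeries 𝕂), h'⟩ :=
      congrArg (gaussRed A) (Subtype.ext e.symm)
    rw [h2]
    exact h1.symm

end Scal

section Level

variable {q m p : ℕ} [NeZero m]

/-- **Unipotence of inertia at `q` on `J₀(m q)[p^∞]`**, `q ∤ m`, from good reduction at level `m`
and the triviality of inertia on toric classes. -/
theorem inertiaUnipotent_level (hq : q.Prime) (hp : p.Prime) (hpq : p ≠ q) (hm : ¬ q ∣ m)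
    (H3 : ∀ A : ValuationSubring 𝕂, A.LiesOverPrime q →
      S18aux.DegThm (IsLocalRing.ResidueField A) m)
    (H2 : ∀ A : ValuationSubring 𝕂, A.LiesOverPrime q →
      genusFF 𝕂 (modularFunctionFieldBar m) ≤
        genusFF (IsLocalRing.ResidueField A) (modularFunctionFieldFullC (IsLocalRing.ResidueField A) m))
    (hcore : ∀ (A : ValuationSubring 𝕂) (hA : A.LiesOverPrime q) [Fact q.Prime]
      [CharP (IsLocalRing.ResidueField A) q] [PerfectRing (IsLocalRing.ResidueField A) q]
      (n : ℕ), (n : IsLocalRing.ResidueField A) ≠ 0 →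
        (mkData hq hm hA (H3 A hA) (H2 A hA)).Core n) :
    InertiaUnipotent (JZero (m * q)) p q := by
  intro A hA σ hσ k x hx
  haveI : Fact q.Prime := ⟨hq⟩
  haveI : CharP (IsLocalRing.ResidueField A) q := TEll.charP_residueField A q hA
  haveI : PerfectRing (IsLocalRing.ResidueField A) q := inferInstance
  haveI : IsFF 𝕂 (modularFunctionFieldBar (m * q)) := inferInstance
  have hact := act_mkData_inertia hq hm hA (H3 A hA) (H2 A hA) hσ
  have hn : ((p ^ k : ℕ) : IsLocalRing.ResidueField A) ≠ 0 := by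
    intro h
    rw [CharP.cast_eq_zero_iff (IsLocalRing.ResidueField A) q] at h
    exact hpq ((Nat.prime_dvd_prime_iff_eq hq hp).mp (hq.dvd_of_dvd_pow h)).symm
  exact (mkData hq hm hA (H3 A hA) (H2 A hA)).smul_sub_of_core
    (scal_mkData hq hm hA (H3 A hA) (H2 A hA)) (hcore A hA _ hn) hact hact hx

theorem InertiaUnipotent.congr_level {N N' : ℕ} (h : N = N')
    (hU : InertiaUnipotent (JZero N) p q) : InertiaUnipotent (JZero N') p q := by
  subst h; exact hU

/-- **Unipotence of inertia at `q` on `J₀(N)[p^∞]`**, `q ∥ N`, from good reduction at levels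
divisible by `4` or `9`. -/
theorem inertiaUnipotent_of_exact (hq : q.Prime) (hp : p.Prime) (hpq : p ≠ q) (hm : ¬ q ∣ m)
    (H3 : ∀ (m : ℕ) [NeZero m], ¬ q ∣ m → ∀ A : ValuationSubring 𝕂, A.LiesOverPrime q →
      S18aux.DegThm (IsLocalRing.ResidueField A) m)
    (H2 : ∀ (m : ℕ) [NeZero m], ¬ q ∣ m → (4 ∣ m ∨ 9 ∣ m) →
      ∀ A : ValuationSubring 𝕂, A.LiesOverPrime q →
      genusFF 𝕂 (modularFunctionFieldBar m) ≤
        genusFF (IsLocalRing.ResidueField A) (modularFunctionFieldFullC (IsLocalRing.ResidueField A) m))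
    (hcore : ∀ (m : ℕ) [NeZero m] (hm : ¬ q ∣ m) (h49 : 4 ∣ m ∨ 9 ∣ m)
      (A : ValuationSubring 𝕂) (hA : A.LiesOverPrime q) [Fact q.Prime]
      [CharP (IsLocalRing.ResidueField A) q] [PerfectRing (IsLocalRing.ResidueField A) q]
      (n : ℕ), (n : IsLocalRing.ResidueField A) ≠ 0 →
        (mkData hq hm hA (H3 m hm A hA) (H2 m hm h49 A hA)).Core n) :
    InertiaUnipotent (JZero (m * q)) p q := by
  haveI : NeZero q := ⟨hq.ne_zero⟩
  obtain ⟨t, ht0, ht49, htq⟩ : ∃ t : ℕ, t ≠ 0 ∧ (4 ∣ t ∨ 9 ∣ t) ∧ ¬ q ∣ t := by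
    by_cases h2 : q = 2
    · refine ⟨9, by norm_num, Or.inr (dvd_refl 9), ?_⟩
      rw [h2]; norm_num
    · refine ⟨4, by norm_num, Or.inl (dvd_refl 4), fun h => h2 ?_⟩
      have h4 : q ∣ 2 ^ 2 := by norm_num; exact h
      exact (Nat.prime_dvd_prime_iff_eq hq Nat.prime_two).mp (hq.dvd_of_dvd_pow h4)
  haveI : NeZero t := ⟨ht0⟩
  have hmt : ¬ q ∣ m * t := fun h => ((Nat.Prime.dvd_mul hq).mp h).elim hm htq
  have h49 : 4 ∣ m * t ∨ 9 ∣ m * t := ht49.imp (fun h => h.mul_left m) fun h => h.mul_left m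
  have h1 : InertiaUnipotent (JZero (m * t * q)) p q :=
    inertiaUnipotent_level hq hp hpq hmt (H3 (m * t) hmt) (H2 (m * t) hmt h49)
      (fun A hA _ _ _ n hn => hcore (m * t) hmt h49 A hA n hn)
  have h2 : InertiaUnipotent (JZero (m * q * t)) p q :=
    h1.congr_level (by ring)
  exact InertiaUnipotent.descend (m * q) t hp h2

end Level

end Fermat.Agent.S34aux
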